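import Fermat.Agent.Arith.Minkowski
import Fermat.Agent.Arith.Density.Frobenius
import Fermat.Agent.Arith.Chebotarev.Orth

/-!
# Cyclotomic crossing
-/

set_option autoImplicit false

noncomputable section

namespace Fermat.Agent.Arith.Chebotarev

open Filter Subgroup NumberField
open Fermat.Agent.Arith Fermat.Agent.Arith.Density
open scoped Topology nonZeroDivisors Classical Pointwise

variable (L : IntermediateField ℚ QBar) [FiniteDimensional ℚ L] [IsGalois ℚ L]

/-- The number of `x` conjugating the Frobenius at a prime `ℓ` to `g`. -/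
def conjCount (g : Gal(L/ℚ)) (ℓ : ℕ) : ℝ :=
  if ℓ.Prime then (Nat.card {x : Gal(L/ℚ) // x⁻¹ * frobL L ℓ * x = g} : ℝ) else 0

theorem hasLogPole_conjCount_one : HasLogPole (conjCount L 1) 1 :=
  (hasLogPole_card_mem L 1).congr
    (fun ℓ => by
      simp only [conjCount]
      refine if_congr Iff.rfl (congrArg Nat.cast ?_) rfl
      exact Nat.card_congr (Equiv.subtypeEquivRight fun x => by
        rw [zpowers_one_eq_bot, Subgroup.mem_bot])) (by simp)

instance numberField_of_finiteDimensional (K : IntermediateField ℚ QBar) [FiniteDimensional ℚ K] :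
    NumberField K :=
  { to_finiteDimensional := inferInstance }

omit [FiniteDimensional ℚ ↥L] in
theorem restrictNormalHom_eq_one_iff {σ : GQ} :
    AlgEquiv.restrictNormalHom L σ = 1 ↔ ∀ x ∈ L, σ x = x :=
  MonoidHom.mem_ker.symm.trans ((SetLike.ext_iff.mp
    (@IntermediateField.restrictNormalHom_ker ℚ QBar _ _ _ L (IsGalois.to_normal (F := ℚ) (E := L))) σ).trans
      (IntermediateField.mem_fixingSubgroup_iff _ _))

theorem natCast_eq_of_pow_eq {m : ℕ} [NeZero m] {ζ : QBar} (hζ : IsPrimitiveRoot ζ m) {a b : ℕ}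
    (h : ζ ^ a = ζ ^ b) : (a : ZMod m) = b := by
  have h2 := (hζ.isOfFinOrder (NeZero.ne m)).pow_eq_pow_iff_modEq.mp h
  rwa [← hζ.eq_orderOf, ← ZMod.natCast_eq_natCast_iff] at h2

theorem autToPow_eq {m : ℕ} [NeZero m] {ζ : QBar} (hζ : IsPrimitiveRoot ζ m) {σ : GQ} {b : ℕ}
    (h : σ ζ = ζ ^ b) : ((hζ.autToPow ℚ σ : (ZMod m)ˣ) : ZMod m) = b := by
  have h1 := natCast_eq_of_pow_eq hζ ((hζ.autToPow_spec ℚ σ).trans h)
  rwa [ZMod.natCast_zmod_val] at h1

theorem inertia_fixes_of_good {m : ℕ} (hm : m.Prime) (hgood : Good L m) {A : ValuationSubring QBar}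
    (hA : A.LiesOverPrime m) {σ : GQ} (hσ : σ ∈ A.inertiaSubgroupIn ℚ) :
    AlgEquiv.restrictNormalHom L σ = 1 := by
  rw [restrictNormalHom_eq_one_iff]
  intro x hx
  by_contra hne
  obtain ⟨y, hy⟩ := hgood A hA ((σ : QBar →ₐ[ℚ] QBar).comp L.val) L.val
    fun h => hne (AlgHom.congr_fun h ⟨x, hx⟩)
  exact hy ((mem_inertia_iff hA hm).mp hσ _ ((y.2 : IsIntegral ℤ (y : L)).map
    L.val.toRingHom.toIntAlgHom))

theorem autToPow_frobenius {m : ℕ} [NeZero m] {ζ : QBar} (hζ : IsPrimitiveRoot ζ m)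
    {q : ℕ} {A : ValuationSubring QBar} (hA : A.LiesOverPrime q) (hq : q.Prime) {σ : GQ}
    (hσ : A.IsFrobeniusAt σ q) (hqm : ¬q ∣ m) :
    ((hζ.autToPow ℚ σ : (ZMod m)ˣ) : ZMod m) = q :=
  autToPow_eq hζ (frobenius_root hA hq hσ hζ.pow_eq_one hqm)

theorem autToPow_surjective {m : ℕ} [NeZero m] {ζ : QBar} (hζ : IsPrimitiveRoot ζ m)
    (β : (ZMod m)ˣ) : ∃ σ : GQ, hζ.autToPow ℚ σ = β := by
  have hβ : IsPrimitiveRoot (ζ ^ (β : ZMod m).val) m :=
    hζ.pow_of_coprime _ (ZMod.val_coe_unit_coprime β)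
  have hmin : minpoly ℚ ζ = minpoly ℚ (ζ ^ (β : ZMod m).val) := by
    rw [← Polynomial.cyclotomic_eq_minpoly_rat hζ (NeZero.pos m),
      Polynomial.cyclotomic_eq_minpoly_rat hβ (NeZero.pos m)]
  obtain ⟨σ, hσ⟩ := (Normal.minpoly_eq_iff_mem_orbit (h := inferInstance)).mp hmin.symm
  refine ⟨σ, Units.ext ?_⟩
  have h1 := autToPow_eq hζ (show σ ζ = ζ ^ (β : ZMod m).val from hσ)
  rwa [ZMod.natCast_zmod_val] at h1

/-- The compositum of `L` with a cyclotomic field of prime conductor unramified in `L`. -/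
theorem exists_crossing {m : ℕ} (hm : m.Prime) (hgood : Good L m) :
    ∃ (χ : GQ →* (ZMod m)ˣ) (L' : IntermediateField ℚ QBar) (_ : FiniteDimensional ℚ L')
      (_ : IsGalois ℚ L') (θ : Gal(L'/ℚ) ≃* Gal(L/ℚ) × (ZMod m)ˣ),
      (∀ σ : GQ, θ (AlgEquiv.restrictNormalHom L' σ) = (AlgEquiv.restrictNormalHom L σ, χ σ)) ∧
      (∀ (q : ℕ) (A : ValuationSubring QBar) (σ : GQ), q.Prime → q ≠ m → A.LiesOverPrime q →
        A.IsFrobeniusAt σ q → ((χ σ : (ZMod m)ˣ) : ZMod m) = q) := by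
  have : NeZero m := ⟨hm.ne_zero⟩
  obtain ⟨ζ, hζ⟩ := HasEnoughRootsOfUnity.exists_primitiveRoot QBar m
  set χ : GQ →* (ZMod m)ˣ := hζ.autToPow ℚ
  set rL : GQ →* Gal(L/ℚ) := AlgEquiv.restrictNormalHom L
  set K : IntermediateField ℚ QBar := IntermediateField.adjoin ℚ {ζ}
  have hspec : ∀ σ : GQ, σ ζ = ζ ^ ((χ σ : (ZMod m)ˣ) : ZMod m).val := fun σ =>
    (hζ.autToPow_spec ℚ σ).symm
  have : FiniteDimensional ℚ K :=
    IntermediateField.adjoin.finiteDimensional (Algebra.IsIntegral.isIntegral ζ)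
  have hKn : Normal ℚ K := by
    refine IntermediateField.normal_iff_forall_map_le'.mpr fun σ => ?_
    rw [IntermediateField.adjoin_map, IntermediateField.adjoin_le_iff]
    rintro _ ⟨x, rfl, rfl⟩
    show σ x ∈ K
    rw [hspec σ]
    exact pow_mem (IntermediateField.mem_adjoin_simple_self ℚ x) _
  set L' : IntermediateField ℚ QBar := L ⊔ K
  have : Normal ℚ L' := @IntermediateField.normal_sup ℚ QBar _ _ _ L K (IsGalois.to_normal (F := ℚ) (E := L)) hKn
  have : IsGalois ℚ L' := ⟨⟩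
  set rL' : GQ →* Gal(L'/ℚ) := AlgEquiv.restrictNormalHom L'
  set ρ : GQ →* Gal(L/ℚ) × (ZMod m)ˣ := rL.prod χ
  have hker : rL'.ker = ρ.ker := by
    ext σ
    rw [MonoidHom.mem_ker, restrictNormalHom_eq_one_iff, MonoidHom.mem_ker, MonoidHom.prod_apply,
      Prod.mk_eq_one, restrictNormalHom_eq_one_iff]
    constructor
    · intro h
      refine ⟨fun x hx => h x ((le_sup_left : L ≤ L') hx), Units.ext ?_⟩
      refine (autToPow_eq hζ (b := 1) ?_).trans (by simp)
      rw [pow_one]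
      exact h ζ ((le_sup_right : K ≤ L') (IntermediateField.mem_adjoin_simple_self ℚ ζ))
    · rintro ⟨hL, hχ⟩
      have hle : L' ≤ IntermediateField.fixedField (zpowers σ) := by
        refine sup_le ?_ (IntermediateField.adjoin_le_iff.mpr ?_)
        · rw [IntermediateField.le_iff_le, zpowers_le, IntermediateField.mem_fixingSubgroup_iff]
          exact hL
        · intro x hxζ
          rw [Set.mem_singleton_iff] at hxζ
          rw [hxζ]
          have hσζ : σ ζ = ζ := by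
            rw [hspec σ, hχ, Units.val_one]
            have : Fact (1 < m) := ⟨hm.one_lt⟩
            rw [ZMod.val_one, pow_one]
          rintro ⟨τ, hτ⟩
          obtain ⟨i, rfl⟩ := mem_zpowers_iff.mp hτ
          exact MulAction.mem_stabilizer_iff.mp (Subgroup.zpow_mem (MulAction.stabilizer GQ ζ) hσζ i)
      intro x hx
      exact hle hx ⟨σ, mem_zpowers σ⟩
  -- surjectivity
  have hsup : rL.ker ⊔ χ.ker = ⊤ := by
    refine eq_top_of_inertia_le _ (Subgroup.isOpen_mono le_sup_left ?_) fun q hq A hA σ hσ => ?_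
    · rw [show rL.ker = L.fixingSubgroup from
        @IntermediateField.restrictNormalHom_ker ℚ QBar _ _ _ L (IsGalois.to_normal (F := ℚ) (E := L))]
      exact IntermediateField.fixingSubgroup_isOpen L
    · by_cases hqm : q = m
      · subst hqm
        exact mem_sup_left (inertia_fixes_of_good L hm hgood hA hσ)
      · refine mem_sup_right (MonoidHom.mem_ker.mpr (Units.ext ?_))
        refine (autToPow_eq hζ (b := 1) ?_).trans (by simp)
        rw [pow_one]
        exact inertia_root hA hq hσ hζ.pow_eq_one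
          fun h => hqm ((Nat.prime_dvd_prime_iff_eq hq hm).mp h)
  have hρ : Function.Surjective ρ := by
    rintro ⟨g, β⟩
    obtain ⟨σ₀, hσ₀⟩ := AlgEquiv.restrictNormalHom_surjective (K₁ := L) QBar g
    obtain ⟨τ₀, hτ₀⟩ := autToPow_surjective hζ β
    have hmem : σ₀⁻¹ * τ₀ ∈ ((rL.ker ⊔ χ.ker : Subgroup GQ) : Set GQ) := by
      rw [hsup]; exact Subgroup.mem_top _
    rw [Subgroup.normal_mul] at hmem
    obtain ⟨a, ha, b, hb, hab⟩ := Set.mem_mul.mp hmem
    have ha' : rL a = 1 := ha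
    have hb' : χ b = 1 := hb
    refine ⟨σ₀ * a, Prod.ext ?_ ?_⟩
    · show rL (σ₀ * a) = g
      rw [map_mul, ha', mul_one]
      exact hσ₀
    · show χ (σ₀ * a) = β
      rw [show σ₀ * a = τ₀ * b⁻¹ by
        rw [eq_mul_inv_iff_mul_eq, mul_assoc, hab, mul_inv_cancel_left], map_mul, map_inv, hb',
        inv_one, mul_one]
      exact hτ₀
  have hs : Function.Surjective rL' := AlgEquiv.restrictNormalHom_surjective (K₁ := L') QBar
  refine ⟨χ, L', inferInstance, inferInstance,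
    (QuotientGroup.quotientKerEquivOfSurjective rL' hs).symm.trans
      ((QuotientGroup.quotientMulEquivOfEq hker).trans
        (QuotientGroup.quotientKerEquivOfSurjective ρ hρ)), fun σ => ?_,
    fun q A σ hq hqm hA hσ => autToPow_frobenius hζ hA hq hσ
      fun h => hqm ((Nat.prime_dvd_prime_iff_eq hq hm).mp h)⟩
  have hsymm : (QuotientGroup.quotientKerEquivOfSurjective rL' hs).symm (rL' σ) =
      QuotientGroup.mk σ :=
    (MulEquiv.symm_apply_eq _).mpr rfl
  rw [MulEquiv.trans_apply, MulEquiv.trans_apply, hsymm]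
  rfl

/-- The crossing: prescribing also the residue of `ℓ` modulo `m`. -/
theorem hasLogPole_conjCount_cross (g : Gal(L/ℚ)) {m : ℕ} (hm : m.Prime) (hgood : Good L m)
    (β : (ZMod m)ˣ) (hgβ : g ^ orderOf β = 1) :
    HasLogPole (fun ℓ => if (ℓ : ZMod m) = (β : ZMod m) then conjCount L g ℓ else 0)
      (m.totient : ℝ)⁻¹ := by
  have : NeZero m := ⟨hm.ne_zero⟩
  obtain ⟨χ, L', hfd, hgal, θ, hθ, hχ⟩ := exists_crossing L hm hgood
  set z : Gal(L'/ℚ) := θ.symm (g, β)
  have hθz : ∀ j : ℕ, θ (z ^ j) = (g ^ j, β ^ j) := fun j => by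
    rw [map_pow, MulEquiv.apply_symm_apply, Prod.pow_mk]
  set d := orderOf β
  have hzd : orderOf z = d := by
    rw [MulEquiv.orderOf_eq, Prod.orderOf]
    exact Nat.lcm_eq_right (orderOf_dvd_of_pow_eq_one hgβ)
  set M := fixedBy L' z
  obtain ⟨B, hB⟩ := exists_bound_good M
  have hd0 : (d : ℝ) ≠ 0 := Nat.cast_ne_zero.mpr (orderOf_pos β).ne'
  have hφ0 : (m.totient : ℝ) ≠ 0 := Nat.cast_ne_zero.mpr (Nat.totient_pos.mpr hm.pos).ne'
  -- structure at a good prime
  have hfrob : ∀ ℓ : ℕ, ℓ.Prime → ℓ ≠ m → ∀ x : Gal(L'/ℚ),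
      θ (x⁻¹ * frobL L' ℓ * x) = ((θ x).1⁻¹ * frobL L ℓ * (θ x).1, χ (frobAt ℓ)) ∧
        ((χ (frobAt ℓ) : (ZMod m)ˣ) : ZMod m) = ℓ := by
    intro ℓ hℓ hne x
    refine ⟨?_, hχ ℓ _ _ hℓ hne (exists_liesOverPrime hℓ).choose_spec (frobAt_spec hℓ)⟩
    rw [map_mul, map_mul, map_inv, frobL, hθ]
    refine Prod.ext rfl ?_
    show (θ x).2⁻¹ * χ (frobAt ℓ) * (θ x).2 = χ (frobAt ℓ)
    rw [mul_comm _ (θ x).2, mul_inv_cancel_left]
  have hdeg : ∀ ℓ : ℕ, ℓ.Prime → B < ℓ → (d : ℝ) * degOneCount M ℓ =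
      (Nat.card {x : Gal(L'/ℚ) // x⁻¹ * frobL L' ℓ * x ∈ zpowers z} : ℝ) := by
    intro ℓ hℓ hℓB
    rw [degOneCount, if_pos hℓ, ← card_fixed_embeddings (exists_liesOverPrime hℓ).choose_spec hℓ
      (hB ℓ hℓ hℓB) (frobAt_spec hℓ), ← hzd, ← Nat.cast_mul, mul_card_fixed]
  have hclass : ∀ j ℓ : ℕ, max B m < ℓ →
      (d : ℝ) * classCount M m (β ^ j) ℓ = conjCount L' (z ^ j) ℓ := by
    intro j ℓ hℓB
    rw [classCount, conjCount]
    by_cases hℓ : ℓ.Prime
    swap
    · rw [if_neg hℓ]; simp [degOneCount, hℓ]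
    have hne : ℓ ≠ m := by omega
    rw [if_pos hℓ]
    by_cases hu : (ℓ : ZMod m) = ((β ^ j : (ZMod m)ˣ) : ZMod m)
    · rw [if_pos hu, hdeg ℓ hℓ (by omega)]
      refine congrArg Nat.cast (Nat.card_congr (Equiv.subtypeEquivRight fun x => ?_))
      refine ⟨fun h => ?_, fun h => h ▸ npow_mem_zpowers z j⟩
      rw [← IsOfFinOrder.mem_powers_iff_mem_zpowers (isOfFinOrder_of_finite _),
        Submonoid.mem_powers_iff] at h
      obtain ⟨i, hi⟩ := h
      have h2 := congrArg Prod.snd ((congrArg θ hi).trans (hfrob ℓ hℓ hne x).1)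
      rw [hθz] at h2
      dsimp only at h2
      have h3 : β ^ i = β ^ j := Units.ext (by rw [h2, (hfrob ℓ hℓ hne x).2, hu])
      rw [← hi, pow_eq_pow_iff_modEq, hzd, ← pow_eq_pow_iff_modEq]
      exact h3
    · rw [if_neg hu, mul_zero]
      have : IsEmpty {x : Gal(L'/ℚ) // x⁻¹ * frobL L' ℓ * x = z ^ j} := ⟨fun ⟨x, hx⟩ => hu (by
        have h2 := congrArg Prod.snd ((congrArg θ hx).symm.trans (hfrob ℓ hℓ hne x).1)
        rw [hθz] at h2
        dsimp only at h2
        rw [← (hfrob ℓ hℓ hne x).2, ← h2])⟩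
      simp
  -- the class of `1`
  have hone : HasLogPole (classCount M m 1) (d : ℝ)⁻¹ := by
    refine (((hasLogPole_conjCount_one L').smul (d : ℝ)⁻¹).congr_eventually (max B m)
      fun ℓ hℓ => ?_).congr (fun _ => rfl) (mul_one _)
    have h := hclass 0 ℓ hℓ
    rw [pow_zero, pow_zero] at h
    rw [← h, inv_mul_cancel_left₀ hd0]
  have hpole : HasLogPole (classCount M m β) (d : ℝ)⁻¹ := by
    refine hasLogPole_classCount M β (fun ψ hψ => ⟨max B m, fun ℓ hℓB hne0 => ?_⟩)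
      (fun ψ hψ => ?_) hone
    · have hℓ : ℓ.Prime := by
        by_contra h
        exact hne0 (by simp [degOneCount, h])
      have hne : ℓ ≠ m := by omega
      have h1 := hdeg ℓ hℓ (by omega)
      have h2 : Nonempty {x : Gal(L'/ℚ) // x⁻¹ * frobL L' ℓ * x ∈ zpowers z} := by
        by_contra h
        rw [not_nonempty_iff] at h
        rw [Nat.card_of_isEmpty, Nat.cast_zero] at h1
        exact hne0 ((mul_eq_zero.mp h1).resolve_left hd0)
      obtain ⟨x, hx⟩ := h2
      rw [← IsOfFinOrder.mem_powers_iff_mem_zpowers (isOfFinOrder_of_finite _),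
        Submonoid.mem_powers_iff] at hx
      obtain ⟨i, hi⟩ := hx
      have h3 := congrArg Prod.snd ((congrArg θ hi).trans (hfrob ℓ hℓ hne x).1)
      rw [hθz] at h3
      dsimp only at h3
      rw [← (hfrob ℓ hℓ hne x).2, ← h3, Units.val_pow_eq_pow_val, map_pow, hψ, one_pow]
    · obtain ⟨G₀, hG₀⟩ := AlgEquiv.restrictNormalHom_surjective (K₁ := L') QBar z
      obtain ⟨ℓ, hℓ, hℓS, A, hA, σ, hσ, hz⟩ := exists_frobenius_zpowers_eq L' G₀ {m}
      have hne : ℓ ≠ m := fun h => hℓS (Finset.mem_singleton.mpr h)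
      rw [hG₀] at hz
      have hfix : (σ : QBar →ₐ[ℚ] QBar).comp (L'.val.comp M.val) = L'.val.comp M.val := by
        refine AlgHom.ext fun k => ?_
        have hk : AlgEquiv.restrictNormalHom L' σ (k : L') = (k : L') :=
          k.2 ⟨_, hz ▸ mem_zpowers _⟩
        have hk2 := congrArg Subtype.val hk
        rwa [show ((AlgEquiv.restrictNormalHom L' σ (k : L') : L') : QBar) = σ ((k : L') : QBar)
          from AlgEquiv.restrictNormal_commutes σ L' _] at hk2
      have hN := absNorm_comap_of_fixed hA hℓ hσ hfix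
      refine ⟨⟨_, mem_nonZeroDivisors_iff_ne_zero.mpr
        (comap_intMap_ne_bot hA hℓ (L'.val.comp M.val))⟩, ?_, ?_⟩
      · show Nat.Coprime (Ideal.absNorm ((centre A).comap (intMap M (L'.val.comp M.val)))) m
        exact hN.symm ▸ (Nat.coprime_primes hℓ hm).mpr hne
      · refine Eq.mpr (congrArg (fun t : ℕ => ψ (t : ZMod m) ≠ 1) hN) ?_
        rw [← hχ ℓ A σ hℓ hne hA hσ]
        intro h1
        refine hψ ?_
        have hmem : z ∈ zpowers (AlgEquiv.restrictNormalHom L' σ) := hz ▸ mem_zpowers z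
        rw [← IsOfFinOrder.mem_powers_iff_mem_zpowers (isOfFinOrder_of_finite _),
          Submonoid.mem_powers_iff] at hmem
        obtain ⟨i, hi⟩ := hmem
        have h3 := congrArg (fun t => (θ t).2) hi
        simp only [map_pow, hθ, MulEquiv.apply_symm_apply, z, Prod.pow_mk] at h3
        rw [← h3, Units.val_pow_eq_pow_val, map_pow, h1, one_pow]
  -- translate back to `L`
  refine ((hpole.smul ((d : ℝ) / m.totient)).congr_eventually (max B m) fun ℓ hℓB => ?_).congr
    (fun _ => rfl) (by field_simp)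
  have h := hclass 1 ℓ hℓB
  rw [pow_one, pow_one] at h
  rw [div_mul_eq_mul_div, h, conjCount, conjCount]
  by_cases hℓ : ℓ.Prime
  swap
  · simp [hℓ]
  have hne : ℓ ≠ m := by omega
  rw [if_pos hℓ, if_pos hℓ]
  by_cases hu : (ℓ : ZMod m) = (β : ZMod m)
  · rw [if_pos hu]
    have hval : χ (frobAt ℓ) = β := Units.ext (by rw [(hfrob ℓ hℓ hne 1).2, hu])
    have hcard : Nat.card {x : Gal(L'/ℚ) // x⁻¹ * frobL L' ℓ * x = z} =
        Nat.card {y : Gal(L/ℚ) // y⁻¹ * frobL L ℓ * y = g} * m.totient := by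
      rw [← ZMod.card_units_eq_totient, ← Nat.card_eq_fintype_card, ← Nat.card_prod]
      refine Nat.card_congr
        { toFun := fun x => (⟨(θ x.1).1, ?_⟩, (θ x.1).2)
          invFun := fun p => ⟨θ.symm (p.1.1, p.2), ?_⟩
          left_inv := fun x => Subtype.ext (θ.symm_apply_apply x.1)
          right_inv := fun p => Prod.ext (Subtype.ext (by simp)) (by simp) }
      · have h4 := congrArg θ x.2
        rw [(hfrob ℓ hℓ hne x.1).1, MulEquiv.apply_symm_apply] at h4
        exact congrArg Prod.fst h4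
      · apply θ.injective
        rw [(hfrob ℓ hℓ hne _).1, MulEquiv.apply_symm_apply, MulEquiv.apply_symm_apply, hval]
        exact Prod.ext p.1.2 rfl
    rw [hcard, Nat.cast_mul, mul_div_cancel_right₀ _ hφ0]
  · rw [if_neg hu]
    have : IsEmpty {x : Gal(L'/ℚ) // x⁻¹ * frobL L' ℓ * x = z} := ⟨fun ⟨x, hx⟩ => hu (by
      have h4 := congrArg Prod.snd ((congrArg θ hx).symm.trans (hfrob ℓ hℓ hne x).1)
      rw [MulEquiv.apply_symm_apply] at h4
      dsimp only at h4
      rw [← (hfrob ℓ hℓ hne x).2, ← h4])⟩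
    simp

end Fermat.Agent.Arith.Chebotarev
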